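/-
S19 Part C, block ON: notation.  `Q0 = ⊥ ⊆ ℚ̄` (a copy of `ℚ`), `tb : F_{Q0} → F_{ℚ̄}`.
-/
import Fermat.Agent.S19.Int.Defs
import Fermat.Agent.S18.Export.IsChartBase
import Fermat.Agent.S18.Descent.HorizontalBC

set_option autoImplicit false

noncomputable section

namespace Fermat.Agent.S19.Int

open AlgebraicCurve ModularCurve Fermat.Agent.S24 Fermat.Agent.S18

/-- `ℚ` as a subfield of `ℚ̄`. -/
abbrev Q0 : IntermediateField ℚ Kbar := ⊥

/-- base change `ℚ(X₀(M)) → ℚ̄(X₀(M))` -/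
abbrev tb (M : ℕ) : FK Q0 M →+* FN M := Descent.toBar (modularFunctionFieldFull M) Q0

/-- `A ∩ ℚ` -/
abbrev A0 (A : ValuationSubring Kbar) : ValuationSubring Q0 := A.comap (algebraMap Q0 Kbar)

/-- the arithmetic Galois action on `ℚ̄(X₀(M))` -/
abbrev galM (M : ℕ) : Gal →* SemilinearAut Qb (FN M) := arithmeticGalois (modularFunctionFieldFull M)

end Fermat.Agent.S19.Int
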