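/-
S19 Part C, block ON, leaf BACK (architect helper32; proof helper193, task 2238).

A rational element `β`, integral over `ℚ[y0]`, such that `β Q` has `ℤ_(ℓ)`-integral coefficients for a primitive integral `Q`, is integral
over `ℤ_(ℓ)[y0]`; its image in `ℚ̄(X₀(M))` is integral over `A[y]` and fixed by the arithmetic Galois action.
-/
import Fermat.Agent.S19.Int.ON.Base
import Fermat.Agent.S18.Chart.Mem
import Fermat.Agent.S18.Descent.DVR

set_option autoImplicit false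

noncomputable section

namespace Fermat.Agent.S19.Int

open AlgebraicCurve ModularCurve Fermat.Agent.S24 Fermat.Agent.S18

/-- A ring homomorphism compatible with the constants maps charts into charts. -/
theorem Back.map_mem_chart {K₀ K F₀ F : Type*} [Field K₀] [Field K] [Field F₀] [Field F]
    [Algebra K₀ F₀] [Algebra K F] [Algebra K₀ K] (ι : F₀ →+* F)
    (hι : ∀ c : K₀, ι (algebraMap K₀ F₀ c) = algebraMap K F (algebraMap K₀ K c))
    (B₀ : Subring K₀) (B : Subring K) (hB : ∀ c ∈ B₀, algebraMap K₀ K c ∈ B) {x z : F₀}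
    (hz : z ∈ chart B₀ x) : ι z ∈ chart B (ι x) := by
  rw [mem_chart_iff_isIntegral] at hz ⊢
  have hmap : ∀ y ∈ polyRing B₀ x, ι y ∈ polyRing B (ι x) := by
    intro y hy
    obtain ⟨p, hp, rfl⟩ := (mem_polyRing_iff B₀ x y).1 hy
    refine (mem_polyRing_iff B (ι x) _).2 ⟨p.map (algebraMap K₀ K), fun i => ?_,
      (descChart_map_aeval ι hι x p).symm⟩
    rw [Polynomial.coeff_map]
    exact hB _ (hp i)
  let φ : polyRing B₀ x →+* polyRing B (ι x) :=
    (ι.comp (polyRing B₀ x).subtype).codRestrict (polyRing B (ι x)) (fun y => hmap y y.2)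
  exact IsIntegral.map_of_comp_eq φ ι (by ext; rfl) hz

variable {M : ℕ}

theorem back (A : ValuationSubring Kbar) {ϖ₀ : Q0} {Ow : ValuationSubring (FK Q0 M)}
    {E : IntermediateField Q0 (FK Q0 M)} {y0 : FK Q0 M}
    (hG : IsGauss (A0 A) ϖ₀ (FK Q0 M) Ow) (hV : IsVert (A0 A) ϖ₀ Ow E)
    (hy : IsCoord (A0 A) ϖ₀ Ow E y0) {β : FK Q0 M} (hβ : β ∈ chart (⊤ : Subring Q0) y0)
    (Q : LaurentSeries (A0 A)) (hQ : coeffMap (A0 A).subtype Q ∈ FK Q0 M)
    (hQ0 : coeffMap (IsLocalRing.residue (A0 A)) Q ≠ 0)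
    (hint : ∀ n, ((β : LaurentSeries Q0) * coeffMap (A0 A).subtype Q).coeff n ∈ A0 A) :
    tb M β ∈ chart A.toSubring (tb M y0) ∧ ∀ σ : Gal, galM M σ • tb M β = tb M β := by
  -- `β ∈ Ow`
  have hPc : coeffMap (A0 A).subtype (Descent.liftSeries (A0 A) _ hint) =
      (β : LaurentSeries Q0) * coeffMap (A0 A).subtype Q :=
    Descent.coeffMap_subtype_liftSeries _ _ _
  have hPm : coeffMap (A0 A).subtype (Descent.liftSeries (A0 A) _ hint) ∈ FK Q0 M := by
    rw [hPc]
    exact mul_mem β.2 hQ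
  have h1 := hG.mem (Descent.liftSeries (A0 A) _ hint) hPm
  have h2 := hG.inv_mem Q hQ hQ0
  have hQne : (⟨_, hQ⟩ : FK Q0 M) ≠ 0 := by
    intro h
    have h3 : coeffMap (A0 A).subtype Q = 0 := congrArg Subtype.val h
    apply hQ0
    have h4 : Q = 0 := by
      ext n
      have h5 : ((Q.coeff n : A0 A) : Q0) = 0 :=
        congrArg (fun s : LaurentSeries Q0 => s.coeff n) h3
      rw [h5]
      rfl
    rw [h4, map_zero]
  have hβe : β = (⟨_, hPm⟩ : FK Q0 M) * (⟨_, hQ⟩ : FK Q0 M)⁻¹ := by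
    rw [eq_mul_inv_iff_mul_eq₀ hQne]
    exact Subtype.ext hPc.symm
  have hβO : β ∈ Ow := by
    rw [hβe]
    exact Ow.mul_mem _ _ h1 h2
  have hβC : β ∈ chart (A0 A).toSubring y0 := (mem_chart_iff hV hy β).2 ⟨hβO, hβ⟩
  refine ⟨Back.map_mem_chart (tb M) (Descent.toBar_algebraMap _ _) (A0 A).toSubring A.toSubring
    (fun c hc => hc) hβC, fun σ => Subtype.ext ?_⟩
  rw [coe_arithmeticGalois_smul]
  show coeffMap (σ : Kbar →+* Kbar) (coeffMap (algebraMap Q0 Kbar) (β : LaurentSeries Q0)) =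
    coeffMap (algebraMap Q0 Kbar) (β : LaurentSeries Q0)
  rw [coeffMap_coeffMap]
  refine coeffMap_congr (RingHom.ext fun c => ?_) _
  obtain ⟨r, hr⟩ := IntermediateField.mem_bot.1 c.2
  show σ (c : Kbar) = (c : Kbar)
  rw [← hr]
  exact σ.commutes r

end Fermat.Agent.S19.Int
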