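/-
S19 Part C, block ON, leaf DEN.  (architect helper32; proof helper280): the statement is a frozen interface.

Finitely many elements of `FK K₀ M` have a common PRIMITIVE integral denominator `Q` after which their `q`-coefficients have
bounded denominators.  Proof: `S18.hasNf_FK h₀ M` gives for `β_i ≠ 0` the normal form
`β_i * iota Q_i = cst (ϖ₀ ^ n_i) * iota P_i` (`S18.Gauss.Nf`); `Q := ∏ Q_i` (its reduction is a product of nonzero elements of the field
`k((q))`), `c_i := ϖ₀ ^ (- n_i)`.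
-/
import Fermat.Agent.S18.Gauss.Field

set_option autoImplicit false

noncomputable section

namespace Fermat.Agent.S19.Int

open ModularCurve Fermat.Agent.S24 Fermat.Agent.S18

namespace Den

variable {K₀ : Type*} [Field K₀] {A₀ : ValuationSubring K₀}

/-- one element: a primitive denominator -/
theorem exists_den [Algebra ℚ K₀] {ϖ₀ : K₀} (h₀ : IsUnif A₀ ϖ₀) (M : ℕ) (β : FK K₀ M) :
    ∃ Q R : LaurentSeries A₀, coeffMap A₀.subtype Q ∈ FK K₀ M ∧
      coeffMap (IsLocalRing.residue A₀) Q ≠ 0 ∧ ∃ c : K₀, c ≠ 0 ∧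
        Gauss.cst c * ((β : LaurentSeries K₀) * coeffMap A₀.subtype Q) = coeffMap A₀.subtype R := by
  by_cases hβ : (β : LaurentSeries K₀) = 0
  · refine ⟨1, 0, ?_, ?_, 1, one_ne_zero, ?_⟩
    · rw [map_one]; exact one_mem _
    · rw [map_one]; exact one_ne_zero
    · rw [hβ, zero_mul, mul_zero, map_zero]
  · obtain ⟨n, P, Q, -, hQ, -, hQ0, h⟩ := Gauss.hasNf_FK h₀ M β β.2 hβ
    refine ⟨Q, P, hQ, hQ0, (ϖ₀ ^ n)⁻¹, inv_ne_zero (zpow_ne_zero _ h₀.ne_zero), ?_⟩
    have h' : (β : LaurentSeries K₀) * coeffMap A₀.subtype Q =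
        Gauss.cst (ϖ₀ ^ n) * coeffMap A₀.subtype P := h
    rw [h', ← mul_assoc, ← Gauss.cst_mul, inv_mul_cancel₀ (zpow_ne_zero _ h₀.ne_zero),
      Gauss.cst_one, one_mul]

end Den

theorem exists_common_den {K₀ : Type*} [Field K₀] [Algebra ℚ K₀] {A₀ : ValuationSubring K₀}
    {ϖ₀ : K₀} (h₀ : IsUnif A₀ ϖ₀) (M : ℕ) {r : ℕ} (β : Fin r → FK K₀ M) :
    ∃ Q : LaurentSeries A₀, coeffMap A₀.subtype Q ∈ FK K₀ M ∧
      coeffMap (IsLocalRing.residue A₀) Q ≠ 0 ∧
      ∀ i, ∃ c : K₀, c ≠ 0 ∧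
        ∀ n, c * ((β i : LaurentSeries K₀) * coeffMap A₀.subtype Q).coeff n ∈ A₀ := by
  classical
  choose Q R hQ hQ0 c hc h using fun i => Den.exists_den h₀ M (β i)
  refine ⟨∏ i, Q i, ?_, ?_, fun i => ⟨c i, hc i, fun n => ?_⟩⟩
  · rw [map_prod]
    exact prod_mem fun i _ => hQ i
  · rw [map_prod]
    exact Finset.prod_ne_zero_iff.2 fun i _ => hQ0 i
  · have e : (∏ j, Q j) = Q i * ∏ j ∈ Finset.univ.erase i, Q j :=
      (Finset.mul_prod_erase Finset.univ Q (Finset.mem_univ i)).symm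
    have key : Gauss.cst (c i) * ((β i : LaurentSeries K₀) * coeffMap A₀.subtype (∏ j, Q j)) =
        coeffMap A₀.subtype (R i * ∏ j ∈ Finset.univ.erase i, Q j) := by
      rw [e, map_mul, map_mul, ← h i]
      ring
    rw [← Vert.coeff_algebraMap_mul, key]
    exact ((R i * ∏ j ∈ Finset.univ.erase i, Q j).coeff n).2

end Fermat.Agent.S19.Int
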