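/-
S19 Part C, block ON, leaf GAUSS (architect helper32, proofs helper152).

(G1) an element integral over `A[y]` has Gauss norm `≤ 1` (it REDUCES, `S28.Export.Red`; this does NOT mean that its
`q`-coefficients are integral).  Proof: `S28.Export.exists_good_UData M ℓ hℓ`, `S28.Export.isGood_full`, `S18.FK_eq_full` give
`IsGood A (FN M)`; `S28.Export.gaussRing` is a valuation subring of `FN M`, hence integrally closed; it contains the constants of `A`
(`algebraMap_mem_gaussRing_iff`) and `y` (`mem_gaussRing_iff`), hence `polyRing A y`.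
(G2) if `R` reduces, `t ∈ 𝔪_A` and `t R` has integral coefficients, then these coefficients are in `𝔪_A`:
`Red.smul_of_mem_nonunits`, `red_iota` for `S18.Descent.liftSeries`, `Red.unique`.
-/
import Fermat.Agent.S19.Int.ON.Base
import Fermat.Agent.S28.Export.Main
import Fermat.Agent.S18.Gauss.Field
import Fermat.Agent.S18.Descent.DVR

set_option autoImplicit false

noncomputable section

namespace Fermat.Agent.S19.Int

open AlgebraicCurve ModularCurve Fermat.Agent.S24 Fermat.Agent.S18 Fermat.Agent.S28.Export

variable {M ℓ : ℕ} [NeZero M] [Fact ℓ.Prime]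

/-- (G1) -/
theorem exists_red_of_mem_chart (hℓ : ¬ ℓ ∣ M) (A : ValuationSubring Kbar)
    (hA : A.LiesOverPrime ℓ) {y b : FN M} (hy : ∃ g, Red A (y : LaurentSeries Kbar) g)
    (hb : b ∈ chart A.toSubring y) : ∃ g, Red A (b : LaurentSeries Kbar) g := by
  obtain ⟨D, -, -⟩ := exists_good_UData M ℓ hℓ
  have hgood : IsGood A (modularFunctionFieldBar M) := by
    rw [bar_eq_full]
    exact isGood_full A D hA
  set V : ValuationSubring (FN M) := gaussRing A (modularFunctionFieldBar M) hgood with hV
  have hyV : y ∈ V := hy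
  have hpoly : ∀ z ∈ polyRing A.toSubring y, z ∈ V := by
    rintro _ ⟨p, rfl⟩
    show Polynomial.aeval y (p.map A.toSubring.subtype) ∈ V
    rw [Polynomial.aeval_eq_sum_range]
    refine sum_mem fun i _ => ?_
    rw [Algebra.smul_def]
    refine V.mul_mem _ _ ?_ (pow_mem hyV i)
    rw [hV, algebraMap_mem_gaussRing_iff, Polynomial.coeff_map]
    exact (p.coeff i).2
  have hb' : IsIntegral (polyRing A.toSubring y) b := hb
  obtain ⟨P, hP, hPb⟩ := hb'
  have hint : IsIntegral V b := by
    let φ : polyRing A.toSubring y →+* V :=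
      { toFun := fun z => ⟨z, hpoly z z.2⟩
        map_one' := rfl
        map_mul' := fun _ _ => rfl
        map_zero' := rfl
        map_add' := fun _ _ => rfl }
    refine ⟨P.map φ, hP.map φ, ?_⟩
    rw [Polynomial.eval₂_map]
    exact hPb
  obtain ⟨z, hz⟩ := (IsIntegrallyClosed.isIntegral_iff (R := V) (K := FN M)).1 hint
  have hbV : b ∈ V := by
    rw [← hz]
    exact z.2
  exact hbV

/-- (G2) -/
theorem coeff_mem_nonunits_of_red {A : ValuationSubring Kbar} {R : LaurentSeries Kbar}
    {g : LaurentSeries (IsLocalRing.ResidueField A)} (hR : Red A R g) {t : Kbar}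
    (ht : t ∈ A.nonunits) (h : ∀ n, t * R.coeff n ∈ A) : ∀ n, t * R.coeff n ∈ A.nonunits := by
  intro n
  have h1 : Red A (t • R) 0 := hR.smul_of_mem_nonunits ht
  have hc : ∀ k, (t • R).coeff k ∈ A := by
    intro k
    have : (t • R).coeff k = t * R.coeff k := by simp
    rw [this]
    exact h k
  have h2 : Red A (t • R) (rho A (Descent.liftSeries A (t • R) hc)) := by
    have := red_iota (O := A) (Descent.liftSeries A (t • R) hc)
    rwa [Descent.coeffMap_subtype_liftSeries] at this
  have h3 := h2.unique h1
  have h4 := congrArg (fun z => HahnSeries.coeff z n) h3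
  have h5 : IsLocalRing.residue A (⟨(t • R).coeff n, hc n⟩ : A) = 0 := h4
  rw [IsLocalRing.residue_eq_zero_iff] at h5
  rw [ValuationSubring.mem_nonunits_iff_exists_mem_maximalIdeal]
  have h6 : (t • R).coeff n = t * R.coeff n := by simp
  refine ⟨h n, ?_⟩
  convert h5 using 2
  exact h6.symm

end Fermat.Agent.S19.Int
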