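import Mathlib

/-!
# S19, Part C, block ON, step (4): unimodular bases (Mathlib only; helper109)

`R` a DVR with fraction field `Q`, `U ⊆ (idx → Q)` a finite dimensional subspace all of whose elements
have bounded denominators.  Then `U` has a basis `β_1..β_r` with values in `R` and there are indices
`n_1..n_r` such that the matrix `(β_k (n_i))` is invertible over `R`.
-/

set_option autoImplicit false

noncomputable section

namespace Fermat.Agent.S19.Int

namespace Lin

variable {R Q : Type*} [CommRing R] [IsDomain R] [IsDiscreteValuationRing R] [Field Q] [Algebra R Q]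
  [IsFractionRing R Q] {idx : Type*}

/-- pivot on a coordinate of minimal valuation -/
theorem exists_pivot (u : idx → Q) (hu : u ≠ 0)
    (h : ∃ r : R, r ≠ 0 ∧ ∀ i, ∃ s : R, algebraMap R Q r * u i = algebraMap R Q s) :
    ∃ (n₁ : idx) (b : idx → R), u n₁ ≠ 0 ∧ b n₁ = 1 ∧
      ∀ i, algebraMap R Q (b i) = (u n₁)⁻¹ * u i := by
  obtain ⟨r, hr, hs⟩ := h
  choose s hs using hs
  obtain ⟨i₀, hi₀⟩ : ∃ i, u i ≠ 0 := Function.ne_iff.1 hu
  have hne : Nonempty idx := ⟨i₀⟩
  have hinj := IsFractionRing.injective R Q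
  have hr' : algebraMap R Q r ≠ 0 := by
    rw [Ne, map_eq_zero_iff _ hinj]
    exact hr
  have hs0 : ∀ i, s i = 0 → u i = 0 := by
    intro i hi
    have := hs i
    rw [hi, map_zero] at this
    exact (mul_eq_zero.1 this).resolve_left hr'
  set n₁ : idx := Function.argmin (fun i => IsDiscreteValuationRing.addVal R (s i)) with hn₁
  have hmin : ∀ i, s n₁ ∣ s i := fun i =>
    IsDiscreteValuationRing.addVal_le_iff_dvd.1
      (Function.argmin_le (fun i => IsDiscreteValuationRing.addVal R (s i)) i)
  have hsn : s n₁ ≠ 0 := by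
    intro h0
    have := hmin i₀
    rw [h0, zero_dvd_iff] at this
    exact hi₀ (hs0 i₀ this)
  have hun : u n₁ ≠ 0 := by
    intro h0
    have := hs n₁
    rw [h0, mul_zero, eq_comm, map_eq_zero_iff _ hinj] at this
    exact hsn this
  choose b hb using hmin
  refine ⟨n₁, b, hun, ?_, ?_⟩
  · have := hb n₁
    exact (mul_left_cancel₀ hsn (by rw [mul_one]; exact this)).symm
  · intro i
    have h1 := hs i
    rw [hb i, map_mul, ← hs n₁, mul_assoc] at h1
    have h2 := mul_left_cancel₀ hr' h1
    rw [h2, ← mul_assoc, inv_mul_cancel₀ hun, one_mul]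

theorem aux (n : ℕ) : ∀ (U : Submodule Q (idx → Q)) [FiniteDimensional Q U],
    Module.finrank Q U ≤ n →
    (∀ u ∈ U, ∃ r : R, r ≠ 0 ∧ ∀ i, ∃ s : R, algebraMap R Q r * u i = algebraMap R Q s) →
    ∃ (r : ℕ) (B : Fin r → idx → R) (nn : Fin r → idx),
      (∀ k, (fun i => algebraMap R Q (B k i)) ∈ U) ∧
      Submodule.span Q (Set.range fun k => (fun i => algebraMap R Q (B k i))) = U ∧
      IsUnit (Matrix.of fun k i => B k (nn i)).det := by
  induction n with
  | zero =>
    intro U _ hn _
    have hU0 : U = ⊥ := Submodule.finrank_eq_zero.1 (Nat.le_zero.1 hn)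
    refine ⟨0, Fin.elim0, Fin.elim0, fun k => k.elim0, ?_, ?_⟩
    · rw [hU0, Set.range_eq_empty, Submodule.span_empty]
    · rw [Matrix.det_isEmpty]
      exact isUnit_one
  | succ n ih =>
    intro U _ hn hU
    by_cases hU0 : U = ⊥
    · refine ⟨0, Fin.elim0, Fin.elim0, fun k => k.elim0, ?_, ?_⟩
      · rw [hU0, Set.range_eq_empty, Submodule.span_empty]
      · rw [Matrix.det_isEmpty]
        exact isUnit_one
    obtain ⟨u, huU, hu0⟩ := Submodule.exists_mem_ne_zero_of_ne_bot hU0
    obtain ⟨n₁, b, hun, hb1, hb⟩ := exists_pivot u hu0 (hU u huU)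
    have hbU : (fun i => algebraMap R Q (b i)) ∈ U := by
      have : (fun i => algebraMap R Q (b i)) = (u n₁)⁻¹ • u := by
        ext i
        rw [hb i, Pi.smul_apply, smul_eq_mul]
      rw [this]
      exact U.smul_mem _ huU
    set U' : Submodule Q (idx → Q) := U ⊓ LinearMap.ker (LinearMap.proj (R := Q) (φ := fun _ => Q) n₁)
      with hU'
    have hle : U' ≤ U := inf_le_left
    have hmem : ∀ w, w ∈ U' ↔ w ∈ U ∧ w n₁ = 0 := by
      intro w
      rw [hU', Submodule.mem_inf, LinearMap.mem_ker, LinearMap.proj_apply]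
    have hlt : U' < U := by
      refine lt_of_le_of_ne hle ?_
      intro h
      have h1 := ((hmem _).1 (h ▸ hbU)).2
      rw [hb1, map_one] at h1
      exact one_ne_zero h1
    have hfd : FiniteDimensional Q U' := Submodule.finiteDimensional_of_le hle
    have hrk : Module.finrank Q U' ≤ n := by
      have := Submodule.finrank_lt_finrank_of_lt hlt
      omega
    obtain ⟨r, B, nn, hB, hspan, hdet⟩ := ih U' hrk fun w hw => hU w (hle hw)
    refine ⟨r + 1, Fin.cons b B, Fin.cons n₁ nn, ?_, ?_, ?_⟩
    · intro k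
      refine Fin.cases ?_ (fun j => ?_) k
      · simpa using hbU
      · simpa using hle (hB j)
    · have e : (fun k : Fin (r + 1) => (fun i => algebraMap R Q ((Fin.cons b B : Fin (r + 1) → idx → R) k i)))
          = Fin.cons (fun i => algebraMap R Q (b i)) (fun k => (fun i => algebraMap R Q (B k i))) := by
        ext k i
        refine Fin.cases ?_ (fun j => ?_) k
        · simp
        · simp
      rw [e, Fin.range_cons, Submodule.span_insert, hspan]
      apply le_antisymm
      · exact sup_le ((Submodule.span_singleton_le_iff_mem _ _).2 hbU) hle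
      · intro w hw
        have h1 : w = w n₁ • (fun i => algebraMap R Q (b i))
            + (w - w n₁ • (fun i => algebraMap R Q (b i))) := by
          rw [add_sub_cancel]
        rw [h1]
        refine Submodule.add_mem_sup (Submodule.smul_mem _ _ (Submodule.mem_span_singleton_self _)) ?_
        rw [hmem]
        refine ⟨U.sub_mem hw (U.smul_mem _ hbU), ?_⟩
        rw [Pi.sub_apply, Pi.smul_apply, hb1, map_one, smul_eq_mul, mul_one, sub_self]
    · rw [Matrix.det_succ_column_zero, Fin.sum_univ_succ]
      have h0 : ∀ j : Fin r, B j n₁ = 0 := by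
        intro j
        have := ((hmem _).1 (hB j)).2
        exact (map_eq_zero_iff _ (IsFractionRing.injective R Q)).1 this
      have h1 : ∑ j : Fin r, (-1 : R) ^ (j.succ : ℕ) *
          (Matrix.of fun k i => (Fin.cons b B : Fin (r + 1) → idx → R) k
            ((Fin.cons n₁ nn : Fin (r + 1) → idx) i)) j.succ 0 *
          ((Matrix.of fun k i => (Fin.cons b B : Fin (r + 1) → idx → R) k
            ((Fin.cons n₁ nn : Fin (r + 1) → idx) i)).submatrix j.succ.succAbove Fin.succ).det = 0 := by
        apply Finset.sum_eq_zero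
        intro j _
        simp [h0 j]
      rw [h1, add_zero]
      have h2 : (Matrix.of fun k i => (Fin.cons b B : Fin (r + 1) → idx → R) k
            ((Fin.cons n₁ nn : Fin (r + 1) → idx) i)).submatrix (Fin.succAbove 0) Fin.succ
          = Matrix.of fun k i => B k (nn i) := by
        ext k i
        simp
      rw [h2]
      simpa [hb1] using hdet

end Lin

theorem exists_unimodular_basis {R Q : Type*} [CommRing R] [IsDomain R] [IsDiscreteValuationRing R]
    [Field Q] [Algebra R Q] [IsFractionRing R Q] {idx : Type*} (U : Submodule Q (idx → Q))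
    [FiniteDimensional Q U]
    (hU : ∀ u ∈ U, ∃ r : R, r ≠ 0 ∧ ∀ i, ∃ s : R, algebraMap R Q r * u i = algebraMap R Q s) :
    ∃ (r : ℕ) (β : Fin r → (idx → Q)) (nn : Fin r → idx),
      (∀ k, β k ∈ U) ∧ (Submodule.span Q (Set.range β) = U) ∧
      (∀ k i, ∃ s : R, β k i = algebraMap R Q s) ∧
      ∃ Minv : Matrix (Fin r) (Fin r) R,
        (Matrix.of fun k i => β k (nn i)) * Minv.map (algebraMap R Q) = 1 := by
  obtain ⟨r, B, nn, hB, hspan, hdet⟩ := Lin.aux (R := R) _ U le_rfl hU
  refine ⟨r, fun k i => algebraMap R Q (B k i), nn, hB, hspan, fun k i => ⟨B k i, rfl⟩,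
    (Matrix.of fun k i => B k (nn i))⁻¹, ?_⟩
  have h1 := Matrix.mul_nonsing_inv (Matrix.of fun k i => B k (nn i)) hdet
  have h2 := congrArg (fun M : Matrix (Fin r) (Fin r) R => M.map (algebraMap R Q)) h1
  simp only [Matrix.map_mul, Matrix.map_one _ (map_zero _) (map_one _)] at h2
  exact h2

end Fermat.Agent.S19.Int

end
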