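/-
S19 Part C, block ON, leaf ORTH (Mathlib + Int/ON/Lin.lean only).  (architect + proof helper32)

`A` a valuation ring of `Kb`, `Q ⊆ Kb` a subfield on which `A` induces a discrete valuation ring `A₀`.
`f_1 .. f_r : idx → Q` have bounded denominators, `u_i ∈ Kb`, `R n := ∑ u_i f_i(n)`.  Hypothesis `H`: whenever
`t ∈ 𝔪_A` makes all `t R n` integral, all `t R n` lie in `𝔪_A` ("`R` has Gauss norm `≤ 1`").
Then `R = ∑ c_k g_k` with `c_k ∈ A` and `g_k = ∑ m_{k i} f_i` with values in `A₀`.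

Proof.  `exists_unimodular_basis` for `U := span_Q (f_i)`: `g_k ∈ U` with values in `A₀`, spanning `U`, indices `n_i` and a
matrix `Minv` over `A₀` with `(g_k (n_i)) * Minv = 1`.  Write `g_k = ∑ m_{k i} f_i`, `f_i = ∑ e_{i k} g_k`, `c_k := ∑ u_i e_{i k}`,
so `R n = ∑ c_k g_k(n)`.  If some `c_k ∉ A` choose `k₀` with `c_k / c_{k₀} ∈ A` for all `k` (maximal absolute value); then
`t := c_{k₀}⁻¹ ∈ 𝔪_A`, `t R n = ∑ a_k g_k(n) ∈ A` with `a_k := c_k / c_{k₀}`, so by `H` all `∑_k a_k g_k(n_i) ∈ 𝔪_A`; multiplying by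
`Minv` gives `a_k ∈ 𝔪_A` for all `k`, but `a_{k₀} = 1`.
-/
import Fermat.Agent.S19.Int.ON.Lin

set_option autoImplicit false

namespace Fermat.Agent.S19.Int

theorem orth_bounded {Q : Type*} [Field Q] (A₀ : ValuationSubring Q) {idx : Type*} {r : ℕ}
    (f : Fin r → idx → Q) (hf : ∀ i, ∃ c : Q, c ≠ 0 ∧ ∀ n, c * f i n ∈ A₀) :
    ∀ v ∈ Submodule.span Q (Set.range f), ∃ r : A₀, r ≠ 0 ∧
      ∀ i, ∃ s : A₀, algebraMap A₀ Q r * v i = algebraMap A₀ Q s := by
  intro v hv
  induction hv using Submodule.span_induction with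
  | mem v hv =>
    obtain ⟨i, rfl⟩ := hv
    obtain ⟨c, hc, h⟩ := hf i
    rcases A₀.mem_or_inv_mem c with hcA | hcA
    · exact ⟨⟨c, hcA⟩, fun h0 => hc (congrArg Subtype.val h0), fun n => ⟨⟨_, h n⟩, rfl⟩⟩
    · refine ⟨1, one_ne_zero, fun n => ⟨⟨c⁻¹ * (c * f i n), A₀.mul_mem _ _ hcA (h n)⟩, ?_⟩⟩
      rw [map_one, one_mul]
      show f i n = c⁻¹ * (c * f i n)
      rw [inv_mul_cancel_left₀ hc]
  | zero => exact ⟨1, one_ne_zero, fun n => ⟨0, by simp⟩⟩
  | add v w _ _ hv hw =>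
    obtain ⟨r1, hr1, h1⟩ := hv
    obtain ⟨r2, hr2, h2⟩ := hw
    refine ⟨r1 * r2, mul_ne_zero hr1 hr2, fun n => ?_⟩
    obtain ⟨s1, hs1⟩ := h1 n
    obtain ⟨s2, hs2⟩ := h2 n
    refine ⟨r2 * s1 + r1 * s2, ?_⟩
    rw [map_add, map_mul, map_mul, map_mul, ← hs1, ← hs2, Pi.add_apply]
    ring
  | smul a v _ hv =>
    obtain ⟨r1, hr1, h1⟩ := hv
    by_cases ha0 : a = 0
    · exact ⟨1, one_ne_zero, fun n => ⟨0, by simp [ha0]⟩⟩
    rcases A₀.mem_or_inv_mem a with haA | haA
    · refine ⟨r1, hr1, fun n => ?_⟩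
      obtain ⟨s1, hs1⟩ := h1 n
      refine ⟨⟨a, haA⟩ * s1, ?_⟩
      rw [map_mul, ← hs1, Pi.smul_apply, smul_eq_mul]
      show _ = a * _
      ring
    · refine ⟨r1 * ⟨a⁻¹, haA⟩, mul_ne_zero hr1 (fun h0 => inv_ne_zero ha0 (congrArg Subtype.val h0)),
        fun n => ?_⟩
      obtain ⟨s1, hs1⟩ := h1 n
      refine ⟨s1, ?_⟩
      rw [← hs1, map_mul, Pi.smul_apply, smul_eq_mul]
      show algebraMap A₀ Q r1 * a⁻¹ * (a * v n) = _
      field_simp

theorem orth {Kb Q : Type*} [Field Kb] [Field Q] [Algebra Q Kb] (A : ValuationSubring Kb)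
    [IsDiscreteValuationRing (A.comap (algebraMap Q Kb))] {idx : Type*} {r : ℕ}
    (f : Fin r → idx → Q) (u : Fin r → Kb)
    (hf : ∀ i, ∃ c : Q, c ≠ 0 ∧ ∀ n, c * f i n ∈ A.comap (algebraMap Q Kb))
    (H : ∀ t ∈ A.nonunits, (∀ n, t * ∑ i, u i * algebraMap Q Kb (f i n) ∈ A) →
      ∀ n, t * ∑ i, u i * algebraMap Q Kb (f i n) ∈ A.nonunits) :
    ∃ (s : ℕ) (m : Fin s → Fin r → Q) (c : Fin s → Kb), (∀ k, c k ∈ A) ∧
      (∀ k n, ∑ i, m k i * f i n ∈ A.comap (algebraMap Q Kb)) ∧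
      ∀ n, ∑ i, u i * algebraMap Q Kb (f i n) =
        ∑ k, c k * algebraMap Q Kb (∑ i, m k i * f i n) := by
  classical
  set A₀ := A.comap (algebraMap Q Kb) with hA₀
  set φ := algebraMap Q Kb with hφ
  let U : Submodule Q (idx → Q) := Submodule.span Q (Set.range f)
  have : FiniteDimensional Q U := FiniteDimensional.span_of_finite Q (Set.finite_range f)
  obtain ⟨s, g, nn, hgU, hspan, hgint, Minv, hM⟩ :=
    exists_unimodular_basis (R := A₀) U (orth_bounded A₀ f hf)
  have hm : ∀ k, ∃ m : Fin r → Q, ∑ i, m i • f i = g k := fun k =>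
    (Submodule.mem_span_range_iff_exists_fun Q).1 (hgU k)
  choose m hm using hm
  have he : ∀ i, ∃ e : Fin s → Q, ∑ k, e k • g k = f i := fun i =>
    (Submodule.mem_span_range_iff_exists_fun Q).1 (by
      rw [hspan]; exact Submodule.subset_span ⟨i, rfl⟩)
  choose e he using he
  have hmg : ∀ k n, ∑ i, m k i * f i n = g k n := by
    intro k n
    have := congrFun (hm k) n
    simpa [Finset.sum_apply] using this
  have heg : ∀ i n, f i n = ∑ k, e i k * g k n := by
    intro i n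
    have := congrFun (he i) n
    simpa [Finset.sum_apply] using this.symm
  let c : Fin s → Kb := fun k => ∑ i, u i * φ (e i k)
  have hR : ∀ n, ∑ i, u i * φ (f i n) = ∑ k, c k * φ (g k n) := by
    intro n
    simp only [c, Finset.sum_mul]
    rw [Finset.sum_comm]
    refine Finset.sum_congr rfl fun i _ => ?_
    rw [heg i n, map_sum, Finset.mul_sum]
    refine Finset.sum_congr rfl fun k _ => ?_
    rw [map_mul, mul_assoc]
  have hgA : ∀ k n, φ (g k n) ∈ A := by
    intro k n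
    obtain ⟨z, hz⟩ := hgint k n
    rw [hz]
    exact z.2
  refine ⟨s, m, c, ?_, ?_, ?_⟩
  · by_contra hcon
    push Not at hcon
    obtain ⟨k1, hk1⟩ := hcon
    obtain ⟨k0, -, hk0⟩ := Finset.exists_max_image Finset.univ (fun k => A.valuation (c k))
      ⟨k1, Finset.mem_univ _⟩
    have hv1 : 1 < A.valuation (c k1) := by
      rw [← not_le, A.valuation_le_one_iff]; exact hk1
    have hv0 : 1 < A.valuation (c k0) := lt_of_lt_of_le hv1 (hk0 k1 (Finset.mem_univ _))
    have hc0 : c k0 ≠ 0 := by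
      intro h0
      rw [h0, map_zero] at hv0
      exact not_lt_of_ge zero_le hv0
    set t := (c k0)⁻¹ with ht
    have htn : t ∈ A.nonunits := by
      rw [ValuationSubring.mem_nonunits_iff, ht, map_inv₀]
      exact inv_lt_one_of_one_lt₀ hv0
    have ha : ∀ k, t * c k ∈ A := by
      intro k
      rw [← A.valuation_le_one_iff, map_mul, ht, map_inv₀]
      have h1 := hk0 k (Finset.mem_univ _)
      have h2 : A.valuation (c k0) ≠ 0 := (Valuation.ne_zero_iff _).2 hc0
      rw [inv_mul_le_iff₀ (zero_lt_iff.2 h2), mul_one]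
      exact h1
    have htR : ∀ n, t * ∑ i, u i * φ (f i n) = ∑ k, (t * c k) * φ (g k n) := by
      intro n
      rw [hR, Finset.mul_sum]
      exact Finset.sum_congr rfl fun k _ => (mul_assoc _ _ _).symm
    have hH := H t htn (fun n => by
      rw [htR]
      exact A.sum_mem fun k _ => A.mul_mem _ _ (ha k) (hgA k n))
    -- recover `a k0`
    have hMe : ∀ k k', ∑ i, g k (nn i) * algebraMap A₀ Q (Minv i k') = if k = k' then 1 else 0 := by
      intro k k'
      have := congrFun (congrFun hM k) k'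
      simpa [Matrix.mul_apply, Matrix.one_apply] using this
    have hrec : ∑ i, (t * ∑ j, u j * φ (f j (nn i))) * φ (algebraMap A₀ Q (Minv i k0)) = 1 := by
      have h1 : ∀ i, (t * ∑ j, u j * φ (f j (nn i))) * φ (algebraMap A₀ Q (Minv i k0)) =
          ∑ k, (t * c k) * φ (g k (nn i) * algebraMap A₀ Q (Minv i k0)) := by
        intro i
        rw [htR, Finset.sum_mul]
        refine Finset.sum_congr rfl fun k _ => ?_
        rw [map_mul, mul_assoc]
      rw [Finset.sum_congr rfl fun i _ => h1 i, Finset.sum_comm]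
      have h2 : ∀ k, ∑ i, (t * c k) * φ (g k (nn i) * algebraMap A₀ Q (Minv i k0)) =
          (t * c k) * (if k = k0 then 1 else 0) := by
        intro k
        rw [← Finset.mul_sum, ← map_sum, hMe]
        split_ifs <;> simp
      rw [Finset.sum_congr rfl fun k _ => h2 k]
      simp [ht, hc0]
    have hlt : A.valuation (∑ i, (t * ∑ j, u j * φ (f j (nn i))) *
        φ (algebraMap A₀ Q (Minv i k0))) < 1 := by
      refine Valuation.map_sum_lt _ one_ne_zero fun i _ => ?_
      rw [map_mul]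
      have h1 : A.valuation (t * ∑ j, u j * φ (f j (nn i))) < 1 :=
        (ValuationSubring.mem_nonunits_iff A).1 (hH (nn i))
      have h2 : A.valuation (φ (algebraMap A₀ Q (Minv i k0))) ≤ 1 :=
        (A.valuation_le_one_iff _).2 (Minv i k0).2
      exact mul_lt_one_of_lt_of_le h1 h2
    rw [hrec, map_one] at hlt
    exact lt_irrefl _ hlt
  · intro k n
    rw [hmg]
    obtain ⟨z, hz⟩ := hgint k n
    rw [hz]
    exact z.2
  · intro n
    rw [hR]
    exact Finset.sum_congr rfl fun k _ => by rw [hmg]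

end Fermat.Agent.S19.Int
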