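/-
S19 Part C, block ON, leaf RAT.  SKELETON (architect helper32): the statement is a frozen interface.

An element `b` of `ℚ̄(X₀(M))` integral over `ℚ̄[y]` (`y` rational) is a `ℚ̄`-linear combination of RATIONAL elements
integral over `ℚ[y]`  (normality commutes with the separable base change `ℚ → ℚ̄`).

Proof (trace trick).  `S18.Descent.exists_definedOver`: `b = toBar b₀`, `b₀ ∈ FK K₀ M`, `K₀` a number field.  `e_j` a `ℚ`-basis of
`K₀`, `e'_j` the dual basis for the trace form (`(Algebra.traceForm ℚ K₀).dualBasis (traceForm_nondegenerate ℚ K₀) e`,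
`BilinForm.dualBasis_repr_apply`), so `c = ∑_j Tr (c e_j) e'_j` for `c ∈ K₀`.  For an embedding `τ : K₀ →ₐ[ℚ] ℚ̄` choose `σ_τ ∈ Gal` extending it.
`s_j := ∑_τ galM M σ_τ • (e_j b)`.  (i) `s_j ∈ chart ⊤ y`: a semilinear automorphism fixing `y` maps `ℚ̄[y]` to itself, hence
preserves integrality (`IsIntegral.map_of_comp_eq`); constants are in the chart.  (ii) the `k`-th coefficient of `s_j` is
`∑_τ τ (e_j b₀_k) = Tr (e_j b₀_k) ∈ ℚ` (`trace_eq_sum_embeddings`, `coe_arithmeticGalois_smul`), so `s_j = tb β_j` with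
`β_j ∈ FK Q0 M` by descent of the field of constants (`S36.Desc.mem_laurentBaseChange_of_coeffMap_mem` or
`BAD.Bridge.mem_laurentBaseChange_of_coeffMap_mem`, or `coeffLin_mem_laurentBaseChange` there).
(iii) `β_j ∈ chart ⊤ y0` by `S18.mem_chart_top_descent`.  (iv) `b = ∑_j e'_j s_j` coefficientwise.
-/
import Fermat.Agent.S19.Int.ON.Base
import Fermat.Agent.S18.Descent.Chart
import Fermat.Agent.S18.Descent.Union
import Fermat.Agent.S18.Places.Dedekind
import Fermat.Agent.S37.QA.Span
import Fermat.Agent.S37.QA.Descent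
import Fermat.Agent.S37.QA.Bridge

set_option autoImplicit false

noncomputable section

namespace Fermat.Agent.S19.Int

open AlgebraicCurve ModularCurve Fermat.Agent.S24 Fermat.Agent.S18

variable {M : ℕ}

theorem exists_rational_decomp {y0 : FK Q0 M} {b : FN M}
    (hb : b ∈ chart (⊤ : Subring Kbar) (tb M y0)) :
    ∃ (r : ℕ) (u : Fin r → Kbar) (β : Fin r → FK Q0 M),
      (∀ i, β i ∈ chart (⊤ : Subring Q0) y0) ∧
      b = ∑ i, algebraMap Kbar (FN M) (u i) * tb M (β i) := by
  classical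
  set F₀ := modularFunctionFieldFull M with hF₀
  have hbridge : ∀ z : FN M, z ∈ chart (⊤ : Subring Kbar) (tb M y0) ↔
      S37.QA.Integ (RingHom.id Kbar) ((tb M y0 : FN M) : LaurentSeries Kbar)
        (z : LaurentSeries Kbar) := fun z => by
    rw [mem_chart_top_iff_isIntegral, S37.QA.isIntegral_adjoin_iff]
  -- the coordinate is fixed by Galois
  have hT : ∀ σ : Kbar →ₐ[ℚ] Kbar, coeffMap (σ : Kbar →+* Kbar)
      ((tb M y0 : FN M) : LaurentSeries Kbar) = ((tb M y0 : FN M) : LaurentSeries Kbar) := by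
    intro σ
    show coeffMap (σ : Kbar →+* Kbar) (coeffMap (algebraMap Q0 Kbar) (y0 : LaurentSeries Q0)) =
      coeffMap (algebraMap Q0 Kbar) (y0 : LaurentSeries Q0)
    rw [coeffMap_coeffMap]
    refine coeffMap_congr (RingHom.ext fun x => ?_) _
    obtain ⟨r, hr⟩ := IntermediateField.mem_bot.1 x.2
    show σ (x : Kbar) = (x : Kbar)
    rw [← hr]
    exact σ.commutes r
  have h1 := S37.QA.mem_span_of_mem_baseChange F₀ b.2
  have h2 := S37.QA.galois_descent (S37.QA.fieldSubmodule F₀)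
    (S37.QA.intK ((tb M y0 : FN M) : LaurentSeries Kbar)) (by
      intro σ z hz
      have h3 := S37.QA.Integ.map (i := RingHom.id Kbar) (RingHom.id Kbar) (σ : Kbar →+* Kbar)
        (σ : Kbar →+* Kbar) (by simp) hz
      rw [hT σ] at h3
      exact h3) h1 ((hbridge b).1 hb)
  obtain ⟨n, c, g, hsum⟩ := Submodule.mem_span_set'.mp h2
  choose f hf hfg using fun i => (g i).2
  have htb : ∀ i, ((tb M ⟨coeffEmb Q0 (f i), coeffEmb_mem_laurentBaseChange Q0 (hf i).1⟩ : FN M) :
      LaurentSeries Kbar) = coeffEmb Kbar (f i) := fun i => Descent.coeffMap_coeffEmb' _ _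
  have halg : Algebra.IsAlgebraic Q0 Kbar := S18.Export.isAlgebraic_Kbar
  refine ⟨n, c, fun i => ⟨coeffEmb Q0 (f i), coeffEmb_mem_laurentBaseChange Q0 (hf i).1⟩, ?_, ?_⟩
  · intro i
    rw [mem_chart_top_descent (tb M) (Descent.toBar_algebraMap F₀ Q0), hbridge, htb]
    exact (hf i).2
  · apply Subtype.ext
    rw [← hsum, AddSubmonoidClass.coe_finsetSum]
    refine Finset.sum_congr rfl fun i _ => ?_
    rw [S37.QA.smul_eq_algebraMap_mul, ← hfg i, ← htb i]
    rfl

end Fermat.Agent.S19.Int
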