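/-
S19 Part C, block ON, node N1+N2 (architect helper92).
`R((q))` is integrally closed for a principal ideal domain `R` (Mathlib: `R⟦X⟧` is a UFD), hence an element
of `K₀((q))` which is a quotient of two series with coefficients in the discrete valuation ring `A₀` and which is
integral over `A₀((q))` has coefficients in `A₀`.
WARNING (why this node exists): membership in the Gauss valuation ring does NOT imply integrality of the
`q`-expansion (`1 / (1 + ℓ j)` is a Gauss unit with unbounded denominators).
-/
import Mathlib
import Fermat.Prelude.Def_ModularCurve_LaurentCoeff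
set_option autoImplicit false
noncomputable section
namespace Fermat.Agent.S19.Int.ON
open ModularCurve

theorem isIntegrallyClosed_laurentSeries (R : Type*) [CommRing R] [IsDomain R]
    [IsPrincipalIdealRing R] : IsIntegrallyClosed (LaurentSeries R) := by
  have : IsIntegrallyClosed (PowerSeries R) := inferInstance
  exact isIntegrallyClosed_of_isLocalization (R := PowerSeries R) (LaurentSeries R)
    (Submonoid.powers (PowerSeries.X : PowerSeries R))
    (Submonoid.powers_le.mpr (mem_nonZeroDivisors_of_ne_zero PowerSeries.X_ne_zero))

theorem coeff_mem_of_isIntegralElem {K₀ : Type*} [Field K₀] {A₀ : ValuationSubring K₀}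
    [IsPrincipalIdealRing A₀] {f : LaurentSeries K₀} (P Q : LaurentSeries A₀) (hQ : Q ≠ 0)
    (hf : f * coeffMap A₀.subtype Q = coeffMap A₀.subtype P)
    (hint : (coeffMap A₀.subtype).IsIntegralElem f) (n : ℤ) : f.coeff n ∈ A₀ := by
  have hC : IsIntegrallyClosed (LaurentSeries A₀) := isIntegrallyClosed_laurentSeries A₀
  have hinj : Function.Injective (coeffMap A₀.subtype) := by
    intro x y h
    ext k
    have := congrArg (fun z => z.coeff k) h
    simpa using this
  let _ : Algebra (LaurentSeries A₀) (LaurentSeries K₀) := (coeffMap A₀.subtype).toAlgebra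
  have hinj' : Function.Injective (algebraMap (LaurentSeries A₀) (LaurentSeries K₀)) := hinj
  let g : FractionRing (LaurentSeries A₀) →ₐ[LaurentSeries A₀] LaurentSeries K₀ :=
    IsFractionRing.liftAlgHom (g := Algebra.ofId (LaurentSeries A₀) (LaurentSeries K₀)) hinj'
  set b' : FractionRing (LaurentSeries A₀) :=
    algebraMap _ _ P / algebraMap _ _ Q with hb'
  have hQ' : coeffMap A₀.subtype Q ≠ 0 := fun h => hQ (hinj (by rw [h, map_zero]))
  have hg : g b' = f := by
    rw [hb', map_div₀, AlgHom.commutes, AlgHom.commutes]
    change coeffMap A₀.subtype P / coeffMap A₀.subtype Q = f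
    rw [← hf, mul_div_cancel_right₀ _ hQ']
  have hint' : IsIntegral (LaurentSeries A₀) f := hint
  rw [← hg, isIntegral_algHom_iff g g.injective] at hint'
  obtain ⟨y, hy⟩ := IsIntegrallyClosed.isIntegral_iff.mp hint'
  have hfy : f = coeffMap A₀.subtype y := by
    rw [← hg, ← hy, AlgHom.commutes]
    rfl
  rw [hfy, coeffMap_coeff]
  exact (y.coeff n).2

end Fermat.Agent.S19.Int.ON
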